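import Fermat.Statements.S02

set_option autoImplicit false
open FreyPackage

namespace Fermat.Agent.S02

theorem odd_neg_pow {p : ℕ} (hp : Odd p) (x : ℤ) : (-x) ^ p = -(x ^ p) := hp.neg_pow x

/-- Final step: coprime, `a ≡ 3 mod 4`, `b` even. -/
theorem of_normalized (a b c : ℤ) (ha : a ≠ 0) (hb : b ≠ 0) (hc : c ≠ 0) (p : ℕ)
    (pp : p.Prime) (hp5 : 5 ≤ p) (H : a ^ p + b ^ p = c ^ p) (hg : gcd a b = 1)
    (ha4 : a % 4 = 3) (hb2 : b % 2 = 0) : Nonempty FreyPackage := by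
  refine ⟨⟨a, b, c, ha, hb, hc, p, pp, hp5, H, hg, ?_, ?_⟩⟩
  · have h : (a : ZMod 4) = ((a % 4 : ℤ) : ZMod 4) := by
      rw [← ZMod.intCast_mod a 4]; rfl
    rw [h, ha4]; rfl
  · have h : (b : ZMod 2) = ((b % 2 : ℤ) : ZMod 2) := by
      rw [← ZMod.intCast_mod b 2]; rfl
    rw [h, hb2]; rfl

/-- Coprime, `a` odd, `b` even. -/
theorem of_odd_even (a b c : ℤ) (ha : a ≠ 0) (hb : b ≠ 0) (hc : c ≠ 0) (p : ℕ)
    (pp : p.Prime) (hp5 : 5 ≤ p) (H : a ^ p + b ^ p = c ^ p) (hg : gcd a b = 1)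
    (ha2 : a % 2 = 1) (hb2 : b % 2 = 0) : Nonempty FreyPackage := by
  have hpodd : Odd p := pp.odd_of_ne_two (by omega)
  have h4 : a % 4 = 1 ∨ a % 4 = 3 := by omega
  rcases h4 with h4 | h4
  · refine of_normalized (-a) (-b) (-c) (neg_ne_zero.2 ha) (neg_ne_zero.2 hb) (neg_ne_zero.2 hc)
      p pp hp5 ?_ ?_ ?_ ?_
    · rw [odd_neg_pow hpodd, odd_neg_pow hpodd, odd_neg_pow hpodd, ← H]; ring
    · rw [gcd_neg, neg_gcd]; exact hg
    · omega
    · omega
  · exact of_normalized a b c ha hb hc p pp hp5 H hg h4 hb2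

/-- Coprime case. -/
theorem of_coprime (a b c : ℤ) (ha : a ≠ 0) (hb : b ≠ 0) (hc : c ≠ 0) (p : ℕ)
    (pp : p.Prime) (hp5 : 5 ≤ p) (H : a ^ p + b ^ p = c ^ p) (hg : gcd a b = 1) :
    Nonempty FreyPackage := by
  have hpodd : Odd p := pp.odd_of_ne_two (by omega)
  have hppos : 0 < p := by omega
  have ha2 : a % 2 = 0 ∨ a % 2 = 1 := by omega
  have hb2 : b % 2 = 0 ∨ b % 2 = 1 := by omega
  rcases ha2 with ha2 | ha2
  · rcases hb2 with hb2 | hb2
    · -- both even: contradicts coprimality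
      exfalso
      have h2a : (2 : ℤ) ∣ a := Int.dvd_of_emod_eq_zero ha2
      have h2b : (2 : ℤ) ∣ b := Int.dvd_of_emod_eq_zero hb2
      have h2 : (2 : ℤ) ∣ gcd a b := dvd_gcd h2a h2b
      rw [hg] at h2
      omega
    · -- a even, b odd: swap
      refine of_odd_even b a c hb ha hc p pp hp5 ?_ ?_ hb2 ha2
      · rw [add_comm]; exact H
      · rw [gcd_comm]; exact hg
  · rcases hb2 with hb2 | hb2
    · exact of_odd_even a b c ha hb hc p pp hp5 H hg ha2 hb2
    · -- both odd: c is even; use (a, -c, -b)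
      have hc2 : c % 2 = 0 := by
        have hap : a ^ p % 2 = 1 := by
          have : Odd (a ^ p) := (Int.odd_iff.2 ha2).pow
          exact Int.odd_iff.1 this
        have hbp : b ^ p % 2 = 1 := by
          have : Odd (b ^ p) := (Int.odd_iff.2 hb2).pow
          exact Int.odd_iff.1 this
        have hcp : c ^ p % 2 = 0 := by rw [← H]; omega
        by_contra hcon
        have hc1 : c % 2 = 1 := by omega
        have : Odd (c ^ p) := (Int.odd_iff.2 hc1).pow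
        have := Int.odd_iff.1 this
        omega
      refine of_odd_even a (-c) (-b) ha (neg_ne_zero.2 hc) (neg_ne_zero.2 hb) p pp hp5 ?_ ?_ ha2 ?_
      · rw [odd_neg_pow hpodd, odd_neg_pow hpodd, ← H]; ring
      · rw [gcd_neg, ← gcdab_eq_gcdac hppos H]; exact hg
      · omega

theorem result (a b c : ℤ) (ha : a ≠ 0) (hb : b ≠ 0) (hc : c ≠ 0) (p : ℕ) (pp : p.Prime) (hp5 : 5 ≤ p) (H : a ^ p + b ^ p = c ^ p) : Nonempty FreyPackage := by
  have hppos : 0 < p := by omega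
  have hp0 : p ≠ 0 := hppos.ne'
  set d : ℤ := gcd a b with hd
  have hd0 : d ≠ 0 := by
    intro h
    rw [hd, gcd_eq_zero_iff] at h
    exact ha h.1
  obtain ⟨a', ha'⟩ : d ∣ a := gcd_dvd_left a b
  obtain ⟨b', hb'⟩ : d ∣ b := gcd_dvd_right a b
  have hdc : d ∣ c := by
    rw [← Int.pow_dvd_pow_iff hp0, ← H]
    exact dvd_add (pow_dvd_pow_of_dvd ⟨a', ha'⟩ p) (pow_dvd_pow_of_dvd ⟨b', hb'⟩ p)
  obtain ⟨c', hc'⟩ := hdc
  have ha'0 : a' ≠ 0 := by rintro rfl; exact ha (by rw [ha', mul_zero])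
  have hb'0 : b' ≠ 0 := by rintro rfl; exact hb (by rw [hb', mul_zero])
  have hc'0 : c' ≠ 0 := by rintro rfl; exact hc (by rw [hc', mul_zero])
  have H' : a' ^ p + b' ^ p = c' ^ p := by
    have hdp : d ^ p ≠ 0 := pow_ne_zero p hd0
    apply mul_left_cancel₀ hdp
    rw [mul_add, ← mul_pow, ← mul_pow, ← mul_pow, ← ha', ← hb', ← hc']
    exact H
  have hg' : gcd a' b' = 1 := by
    have h1 : gcd a b = normalize d * gcd a' b' := by
      rw [ha', hb', gcd_mul_left]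
    have h2 : normalize d = d := by
      rw [hd]; exact normalize_gcd a b
    rw [h2, ← hd] at h1
    have h3 : d * 1 = d * gcd a' b' := by rw [mul_one]; exact h1
    exact (mul_left_cancel₀ hd0 h3).symm
  exact of_coprime a' b' c' ha'0 hb'0 hc'0 p pp hp5 H' hg'

end Fermat.Agent.S02
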