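-- Statement S05 (row 5): the mod-p Galois representation of the Frey curve is unramified at
-- every prime q with q ≠ 2 and q ≠ p.
import Fermat.Statements.S05
import Fermat.Agent.S05.Local
import Fermat.Agent.S05.Tent
import Fermat.Agent.S05.TentDoubleR_h9

set_option autoImplicit false
open WeierstrassCurve WeierstrassCurve.Affine WeierstrassCurve.Affine.Point
open CuspForm ModularFormClass UpperHalfPlane
open FreyPackage

namespace Fermat.Agent.S05

theorem result (P : FreyPackage) {q : ℕ} (hq : q.Prime) (hq2 : q ≠ 2) (hqp : q ≠ P.p) : P.GaloisRepUnramifiedAt q :=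
  frey_unramified_of_tent
    (fun v _ _ h2 hA2 hA4 hm =>
      ⟨fun h1 _ _ _ _ _ h7 h8 => tent_lemma v h2 hA2 hA4 hm h1 h7 h8,
        TD9.tent_double_R v h2 hA2 hA4 hm⟩)
    P hq hq2 hqp

end Fermat.Agent.S05
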