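import Fermat.Statements.S07
import Fermat.Prelude.Thm_ModularForm_sturm_bound_Gamma0

set_option autoImplicit false
open WeierstrassCurve WeierstrassCurve.Affine WeierstrassCurve.Affine.Point
open CuspForm ModularFormClass UpperHalfPlane
open ModularForm

namespace Fermat.Agent.S07

open scoped MatrixGroups

/-- The first column mod 2 of a matrix in `SL(2, ℤ)`. -/
def col2 (g : SL(2, ℤ)) : ZMod 2 × ZMod 2 := ((g 0 0 : ZMod 2), (g 1 0 : ZMod 2))

theorem mem_of_col2_eq (g₁ g₂ : SL(2, ℤ)) (h : col2 g₁ = col2 g₂) :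
    g₁⁻¹ * g₂ ∈ CongruenceSubgroup.Gamma0 2 := by
  rw [CongruenceSubgroup.Gamma0_mem]
  simp only [col2, Prod.mk.injEq] at h
  obtain ⟨h1, h2⟩ := h
  have : (g₁⁻¹ * g₂) 1 0 = -(g₁ 1 0) * g₂ 0 0 + g₁ 0 0 * g₂ 1 0 := by
    rw [Matrix.SpecialLinearGroup.coe_mul, Matrix.SpecialLinearGroup.SL2_inv_expl,
      Matrix.mul_apply, Fin.sum_univ_two]
    simp
  rw [this]
  push_cast
  rw [← h1, ← h2]
  ring

theorem index_Gamma0_two_le : (CongruenceSubgroup.Gamma0 2).index ≤ 4 := by
  have hinj : Function.Injective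
      (fun q : SL(2, ℤ) ⧸ CongruenceSubgroup.Gamma0 2 => col2 q.out) := by
    intro q₁ q₂ h
    have := mem_of_col2_eq _ _ h
    rw [← QuotientGroup.eq] at this
    simpa using this
  have := Nat.card_le_card_of_injective _ hinj
  rw [Subgroup.index]
  refine this.trans ?_
  simp [Nat.card_eq_fintype_card]

theorem result (f : CuspForm (CongruenceSubgroup.Gamma0 2) 2) : f = 0 := by
  have hF : (ModularFormClass.modularForm f : ModularForm (CongruenceSubgroup.Gamma0 2) 2) = 0 := by
    apply ModularForm.sturm_bound_Gamma0 2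
    intro n hn
    have h4 := index_Gamma0_two_le
    have hn0 : n = 0 := by
      have : ((2 : ℤ) * ((CongruenceSubgroup.Gamma0 2).index : ℤ)).toNat / 12 = 0 := by
        omega
      omega
    subst hn0
    have h1 : (1 : ℝ) ∈ (CongruenceSubgroup.Gamma0 2 : Subgroup (GL (Fin 2) ℝ)).strictPeriods := by
      simp [CongruenceSubgroup.strictPeriods_Gamma0]
    exact CuspFormClass.qExpansion_coeff_zero f one_pos h1
  ext z
  have := DFunLike.congr_fun hF z
  simpa using this

end Fermat.Agent.S07
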