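import Fermat.Statements.S10
import Fermat.Agent.Kummer.Five
import Fermat.Agent.Kummer.Seven
import Fermat.Agent.Kummer.Thirteen

set_option autoImplicit false
open WeierstrassCurve WeierstrassCurve.Affine WeierstrassCurve.Affine.Point
open CuspForm ModularFormClass UpperHalfPlane
open FreyPackage

namespace Fermat.Agent.S10

theorem result (P : FreyPackage) (hp : P.p = 5 ∨ P.p = 7 ∨ P.p = 13) : ¬ HasGaloisStableCofixedLine (K := AlgebraicClosure ℚ) ℚ P.freyCurve P.p := by
  exfalso
  have hab : IsCoprime P.a P.b := by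
    rw [Int.isCoprime_iff_gcd_eq_one]
    have h := P.hgcdab
    rw [← Int.coe_gcd] at h
    exact_mod_cast h
  have hF := P.hFLT
  rcases hp with h | h | h
  · rw [h] at hF
    exact Fermat.Agent.Kummer.no_solution_five P.ha0 P.hb0 P.hc0 hab hF
  · rw [h] at hF
    exact Fermat.Agent.Kummer.no_solution_seven P.ha0 P.hb0 P.hc0 hab hF
  · rw [h] at hF
    exact Fermat.Agent.Kummer.no_solution_thirteen P.ha0 P.hb0 P.hc0 hab hF

end Fermat.Agent.S10
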