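-- Statement S13 (row 12): a reducible mod-p representation of the Frey curve has a Galois-stable
-- line with trivial action on the quotient.
import Fermat.Statements.S13
import Fermat.Agent.S13.Asm
import Fermat.Agent.S13.Minkowski

set_option autoImplicit false
open WeierstrassCurve WeierstrassCurve.Affine WeierstrassCurve.Affine.Point
open CuspForm ModularFormClass UpperHalfPlane
open FreyPackage

namespace Fermat.Agent.S13

theorem result (P : FreyPackage) (hred : ¬ GaloisRepIsIrreducible (K := AlgebraicClosure ℚ) ℚ P.freyCurve P.p) : HasGaloisStableCofixedLine (K := AlgebraicClosure ℚ) ℚ P.freyCurve P.p :=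
  Fermat.Agent.S13.Asm.result_of_minkowski
    (fun H _ hopen hunr => Fermat.Agent.S13.Minkowski.eq_top_of_unramified H hopen hunr) P hred

end Fermat.Agent.S13
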