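-- Statement S14: the Ext-vanishing property `ExtVanishingCts p` for every prime `p ≥ 3`.
-- Route (CFT-free): admissible extension ⇒ unramified cyclic degree-`p` extension of `ℚ(ζ_p)` with
-- `ω⁻¹`-action (Glue, GlueNF, CoreStd) ⇒ Kummer generator of type `ω²` (KummerGen) ⇒ its ideal class
-- is trivial (CharDual + Thaine's relation + density via ideal counting with error term) ⇒ unit of
-- type `ω²` ⇒ power of the cyclotomic unit `E₂` (UnitsEigen) ⇒ local contradiction (UnitLocal).
import Fermat.Statements.S14
import Fermat.Agent.S14.Glue
import Fermat.Agent.S14.GlueNF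
import Fermat.Agent.S14.CoreStd
import Fermat.Agent.S14.Three
import Fermat.Agent.S14.Final
import Fermat.Agent.S14.Density
import Fermat.Agent.S14.ThainePkg
import Fermat.Agent.S14.ThaineRelFinal_helper18

set_option autoImplicit false
open ExtCitation

namespace Fermat.Agent.S14

/-- the number-field core for every prime `p ≥ 3` -/
theorem coreStd_all (p : ℕ) [hp : Fact p.Prime] (h3 : 3 ≤ p) : CoreStd.CoreStd p := by
  rcases Nat.lt_or_ge p 5 with h | h5
  · have hp3 : p = 3 := by
      have h4 : p ≠ 4 := fun h4 => by
        have := hp.out
        rw [h4] at this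
        exact absurd this (by decide)
      omega
    subst hp3
    exact Three.coreStd_three
  · exact Final.coreStd_of_packages p h5
      (ThainePkg.thainePkg_of_rel p h5 (ThaineRelFinal_helper18.thaine_relation p))
      (Density.densityPkg p h3)

theorem result {p : ℕ} [Fact p.Prime] (h3 : 3 ≤ p) :
    ExtCitation.ExtVanishingCts p :=
  Glue.extVanishingCts_of_core p
    (GlueNF.core_of_coreNF p (CoreStd.coreNF_of_coreStd p (coreStd_all p h3)))

end Fermat.Agent.S14
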