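-- Statement S20: dim S₂(Γ₀(N)) = genus formula.
import Fermat.Statements.S20
import Fermat.Agent.S20.Hilbert
import Fermat.Agent.S20.Elliptic
import Fermat.Agent.S20.Psi
import Fermat.Agent.S20.FixPoints
import Fermat.Agent.S20.Cusps
import Fermat.Agent.S20.CuspFinal
import Fermat.Agent.S20.FreeBasisExists

set_option autoImplicit false
open CuspForm

namespace Fermat.Agent.S20

open UpperHalfPlane CongruenceSubgroup Matrix.SpecialLinearGroup ModularGroup
open scoped MatrixGroups ModularForm Manifold

/-- The numbers of generators of weight `10` and `2` of a free basis. -/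
theorem FreeBasis.cnt_ten_two {N : ℕ} [NeZero N] (B : FreeBasis N) :
    (cnt B.d 10 : ℚ) = ModularCurve.genusFormula N ∧
      (cnt B.d 2 : ℚ) = cnt B.d 10 + ModularCurve.cuspCount N - 1 := by
  have hdet := B.det_mat_ne_zero
  have h10 : ∀ i, B.d i ≤ 10 := B.d_le_ten_final
  have hev : ∀ i, Even (B.d i) := B.d_even
  have hI := B.sum_I_pow hdet
  rw [card_fixedBy_S] at hI
  obtain ⟨ζ, hζ, hz⟩ := B.sum_zeta_pow hdet
  rw [card_fixedBy_ST] at hz
  have hwt := B.wt_eq
  rw [card_orbits_T, card_quotient_Gamma0] at hwt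
  have hμ : Fintype.card (Q N) = ModularCurve.dedekindPsi N := by
    rw [← Nat.card_eq_fintype_card, card_quotient_Gamma0]
  have key := linear_system B.d h10 hev (ModularCurve.dedekindPsi N) (ModularCurve.nuTwo N)
    (ModularCurve.nuThree N) (ModularCurve.cuspCount N) ζ hζ B.cnt_zero hμ hI hz hwt
  refine ⟨?_, key.2⟩
  rw [key.1, ModularCurve.genusFormula]

/-- Function-level form of the result. -/
theorem finrank_SkSub_two (N : ℕ) [NeZero N] :
    (Module.finrank ℂ (SkSub N 2) : ℚ) = ModularCurve.genusFormula N := by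
  obtain ⟨B⟩ := exists_freeBasis N
  rw [B.finrank_S2_final]
  have hc : Nat.card {i : Q N // B.d i = 10} = cnt B.d 10 := by
    rw [Nat.card_eq_fintype_card, Fintype.card_subtype]; rfl
  rw [hc, B.cnt_ten_two.1]

theorem result (N : ℕ) [NeZero N] :
    (Module.finrank ℂ (CuspForm (CongruenceSubgroup.Gamma0 N) 2) : ℚ) = ModularCurve.genusFormula N := by
  rw [← finrank_SkSub N 2]
  exact finrank_SkSub_two N

end Fermat.Agent.S20
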