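import Fermat.Statements.S16
import Fermat.Agent.S16.Alg.Dictionary
import Fermat.Agent.S16.Alg.EisHom
import Fermat.Agent.S16.Lower.Main
import Fermat.Agent.S16.LevelOne.Upper

/-!
# S16: `|𝕋 / I| = n` for the Hecke algebra of `S₂(Γ₀(p), ℤ)` and the Eisenstein ideal
(Mazur's formula for the order of the Eisenstein quotient, `n = (p - 1) / gcd (p - 1, 12)`).

* `Alg/Dictionary.natCard_eq_of_bounds` reduces the statement to a lower bound `hlow` and an
  upper bound `hup` in terms of Eisenstein homomorphisms `𝕋 → ℤ/M`.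
* `Lower.hlow` is the lower bound (Shimura homomorphism + finite-coefficient Shapiro count).
* `hup` below is the upper bound: an Eisenstein homomorphism mod `ℓ ^ a` gives a cusp form
  congruent to the Eisenstein series mod `ℓ ^ a` (`Alg.exists_form_of_hasEisHom`), and
  `LevelOne.Upper.upper` shows `ℓ ^ a ∣ n` (level-one tests `T1`, `T2`, `ℓ = p`, and the
  supersingular arguments for `ℓ = 2, 3`).
-/

set_option autoImplicit false
open ModularCurve CuspForm
open ModularCurve

namespace Fermat.Agent.S16

open Fermat.Agent.S16.Alg.AbstractCard Fermat.Agent.S16.Alg.Dictionary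

/-- The upper bound: every `M ≥ 1` carrying an Eisenstein homomorphism divides `n`. -/
theorem hup (p : ℕ) [Fact p.Prime] (M : ℕ) (hM : 1 ≤ M)
    (h : HasEisHom (tGen p) (eisensteinSystem p) M) : M ∣ eisensteinNumerator p := by
  refine Fermat.Agent.S16.Alg.dvd_of_forall_prime_pow (p := p) (eisensteinNumerator p) ?_ M hM h
  intro l hl a ha hla
  obtain ⟨g, hg⟩ := Fermat.Agent.S16.Alg.exists_form_of_hasEisHom (p := p) (l ^ a)
    (Nat.one_le_pow _ _ hl.pos) hla
  exact Fermat.Agent.S16.LevelOne.Upper.upper p hl ha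
    ⟨Fermat.Agent.S20.isCF_coe g, hg⟩

theorem result
    (p : ℕ) [Fact p.Prime] :
    Nat.card (↥(heckeLatticeAlgebra p ∅) ⧸
        Ideal.map ((latticeRestrictHom p ∅).toRingHom.comp (heckeEvalForms p 2))
          (eisensteinIdeal p)) =
      eisensteinNumerator p :=
  natCard_eq_of_bounds p (Fermat.Agent.S16.Lower.hlow p) (hup p)

end Fermat.Agent.S16
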