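import Fermat.Statements.S22
import Fermat.Agent.S22.HeckeRel
import Fermat.Agent.S22.Inject
import Fermat.Agent.S22.Lattice
import Fermat.Agent.S22.Cocycle
import Fermat.Agent.S22.Gamma0FG
import Fermat.Agent.S22.LowWeight

set_option autoImplicit false
open CuspForm

namespace Fermat.Agent.S22

open UpperHalfPlane Polynomial CongruenceSubgroup Matrix.SpecialLinearGroup
open scoped MatrixGroups ModularForm Manifold

noncomputable section

theorem mapGL_det_pos (γ : SL(2, ℤ)) : 0 < (mapGL ℝ γ : GL (Fin 2) ℝ).det.val := by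
  simp

theorem periodPoly_add_cusp (n : ℕ) {N : ℕ} [NeZero N] (f₁ f₂ : CuspForm (Gamma0 N) ((n : ℤ) + 2))
    (g : GL (Fin 2) ℝ) :
    periodPoly n ⇑(f₁ + f₂) g = periodPoly n ⇑f₁ g + periodPoly n ⇑f₂ g := by
  have h₁ := isDecayHolo_cuspForm f₁
  have h₂ := isDecayHolo_cuspForm f₂
  rw [FunLike.coe_add]
  simp only [periodPoly, eichlerPoly_add n one_pos h₁ h₂, map_add]
  ring

theorem periodPoly_smul_cusp (n : ℕ) {N : ℕ} [NeZero N] (c : ℂ) (f : CuspForm (Gamma0 N) ((n : ℤ) + 2))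
    (g : GL (Fin 2) ℝ) :
    periodPoly n ⇑(c • f) g = c • periodPoly n ⇑f g := by
  have h₁ := isDecayHolo_cuspForm f
  rw [FunLike.coe_smul]
  simp only [periodPoly, eichlerPoly_smul n one_pos h₁, map_smul, smul_sub]

/-- the coefficient functionals of the period cocycle -/
def periodFunctional (n : ℕ) (N : ℕ) [NeZero N] (γ : SL(2, ℤ)) (j : ℕ) :
    CuspForm (Gamma0 N) ((n : ℤ) + 2) →ₗ[ℂ] ℂ where
  toFun f := (periodPoly n ⇑f (mapGL ℝ γ)).coeff j
  map_add' f₁ f₂ := by rw [periodPoly_add_cusp, coeff_add]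
  map_smul' c f := by rw [periodPoly_smul_cusp, coeff_smul]; rfl

theorem periodPoly_eq_zero_of_coeff (n : ℕ) (f : ℍ → ℂ) (g : GL (Fin 2) ℝ)
    (h : ∀ j : Fin (n + 1), (periodPoly n f g).coeff j = 0) : periodPoly n f g = 0 := by
  ext j
  by_cases hj : j < n + 1
  · simpa using h ⟨j, hj⟩
  · rw [coeff_zero]
    exact coeff_eq_zero_of_natDegree_lt
      (lt_of_le_of_lt (natDegree_periodPoly_le n f g) (by omega))

/-- integer matrices describing `polyAct n (mapGL ℝ δ)` on coefficient vectors -/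
def actMat (n : ℕ) {g : GL (Fin 2) ℝ} (hg : IsIntegralMat g) : ℕ → ℕ → ℤ :=
  (coeff_polyAct_int n hg).choose

theorem actMat_spec (n : ℕ) {g : GL (Fin 2) ℝ} (hg : IsIntegralMat g) (P : ℂ[X]) (i : ℕ) :
    (polyAct n g P).coeff i = ∑ j ∈ Finset.range (n + 1), (actMat n hg i j : ℂ) * P.coeff j :=
  (coeff_polyAct_int n hg).choose_spec P i

theorem periodFunctional_apply (n : ℕ) (N : ℕ) [NeZero N] (γ : SL(2, ℤ)) (j : ℕ)
    (f : CuspForm (Gamma0 N) ((n : ℤ) + 2)) :
    periodFunctional n N γ j f = (periodPoly n ⇑f (mapGL ℝ γ)).coeff j := rfl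

theorem periodFunctional_mul (n : ℕ) (N : ℕ) [NeZero N] {γ δ : SL(2, ℤ)} (hγ : γ ∈ Gamma0 N)
    (hδ : δ ∈ Gamma0 N) (i : ℕ) (f : CuspForm (Gamma0 N) ((n : ℤ) + 2)) :
    periodFunctional n N (γ * δ) i f =
      ∑ j : Fin (n + 1), (actMat n (isIntegralMat_mapGL δ) i j : ℂ) * periodFunctional n N γ j f
        + periodFunctional n N δ i f := by
  have hf := isDecayHolo_cuspForm f
  have hmul := periodPoly_mul n one_pos hf (mapGL ℝ γ) (mapGL ℝ δ)
    (mapGL_det_pos _) (mapGL_det_pos _) (slash_eq_of_mem_Gamma0 f hγ)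
    (slash_eq_of_mem_Gamma0 f hδ)
  simp only [periodFunctional_apply, map_mul]
  rw [hmul, coeff_add, actMat_spec, Finset.sum_range]

theorem periodFunctional_hecke (n : ℕ) (N : ℕ) [NeZero N] {ι : Type} [Fintype ι]
    (γ : SL(2, ℤ)) (γ' : ι → SL(2, ℤ)) (B : ι → GL (Fin 2) ℝ) (hB : ∀ i, IsIntegralMat (B i))
    (f tf : CuspForm (Gamma0 N) ((n : ℤ) + 2))
    (hrel : periodPoly n ⇑tf (mapGL ℝ γ) =
      ∑ i, polyAct n (B i) (periodPoly n ⇑f (mapGL ℝ (γ' i)))) (j : ℕ) :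
    periodFunctional n N γ j tf = ∑ i : ι, ∑ j' : Fin (n + 1),
      (actMat n (hB i) j j' : ℂ) * periodFunctional n N (γ' i) j' f := by
  simp only [periodFunctional_apply]
  rw [hrel, finsetSum_coeff]
  refine Finset.sum_congr rfl fun i _ => ?_
  rw [actMat_spec, Finset.sum_range]

theorem moduleFinite_weight (n : ℕ) (N : ℕ) [NeZero N] (S : Set ℕ) :
    Module.Finite ℤ (CuspForm.heckeAlgebra N ((n : ℤ) + 2) S) := by
  classical
  have : Group.FG (Gamma0 N) := (Group.fg_iff_subgroup_fg _).mpr (gamma0_fg N)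
  let c : (Gamma0 N) → Fin (n + 1) → (CuspForm (Gamma0 N) ((n : ℤ) + 2) →ₗ[ℂ] ℂ) :=
    fun γ j => periodFunctional n N (γ : SL(2, ℤ)) j
  let A : (Gamma0 N) → Matrix (Fin (n + 1)) (Fin (n + 1)) ℤ :=
    fun δ i j => actMat n (isIntegralMat_mapGL (δ : SL(2, ℤ))) i j
  have hc : ∀ (γ δ : Gamma0 N) (i : Fin (n + 1)),
      c (γ * δ) i = ∑ j, (A δ i j) • c γ j + c δ i := by
    intro γ δ i
    ext f
    rw [LinearMap.add_apply, LinearMap.sum_apply]
    have := periodFunctional_mul n N γ.2 δ.2 i f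
    simp only [c, A, Subgroup.coe_mul, LinearMap.smul_apply, zsmul_eq_mul]
    exact this
  set Lam : Submodule ℤ (CuspForm (Gamma0 N) ((n : ℤ) + 2) →ₗ[ℂ] ℂ) :=
    Submodule.span ℤ (Set.range (fun p : (Gamma0 N) × Fin (n + 1) => c p.1 p.2)) with hLam
  have hfg : Lam.FG := span_fg_of_cocycle (n + 1) c A hc
  have hmem : ∀ (γ : Gamma0 N) (j : Fin (n + 1)), c γ j ∈ Lam := fun γ j =>
    Submodule.subset_span ⟨(γ, j), rfl⟩
  have hsep : ∀ f : CuspForm (Gamma0 N) ((n : ℤ) + 2), (∀ ξ ∈ Lam, ξ f = 0) → f = 0 := by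
    intro f hf
    refine eq_zero_of_periodPoly_eq_zero n f fun γ hγ => ?_
    refine periodPoly_eq_zero_of_coeff n _ _ fun j => ?_
    exact hf _ (hmem ⟨γ, hγ⟩ j)
  have hstab : ∀ t ∈ CuspForm.heckeGenerators N ((n : ℤ) + 2) S, ∀ ξ ∈ Lam, ξ.comp t ∈ Lam := by
    intro t ht ξ hξ
    induction hξ using Submodule.span_induction with
    | mem ξ hξ =>
      obtain ⟨⟨γ, j⟩, rfl⟩ := hξ
      obtain ⟨ι, _, γ', B, hγ', hB, hrel⟩ := periodPoly_hecke n S t ht (γ : SL(2, ℤ)) γ.2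
      have : (c γ j).comp t = ∑ i : ι, ∑ j' : Fin (n + 1),
          (actMat n (hB i) j j') • c ⟨γ' i, hγ' i⟩ j' := by
        ext f
        rw [LinearMap.comp_apply, LinearMap.sum_apply]
        have := periodFunctional_hecke n N (γ : SL(2, ℤ)) γ' B hB f (t f) (hrel f) j
        simp only [c, LinearMap.sum_apply, LinearMap.smul_apply, zsmul_eq_mul]
        exact this
      rw [this]
      exact Lam.sum_mem fun i _ => Lam.sum_mem fun j' _ => Lam.smul_mem _ (hmem _ _)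
    | zero => simp
    | add x y _ _ hx hy =>
      have : (x + y).comp t = x.comp t + y.comp t := by ext v; simp
      rw [this]; exact Lam.add_mem hx hy
    | smul a x _ hx =>
      have : (a • x).comp t = a • x.comp t := by ext v; simp
      rw [this]; exact Lam.smul_mem a hx
  exact finite_of_stable_lattice (CuspForm.heckeGenerators N ((n : ℤ) + 2) S) Lam hfg hsep hstab

end

theorem result (N : ℕ) [NeZero N] (k : ℤ) (S : Set ℕ) :
    Module.Finite ℤ (CuspForm.heckeAlgebra N k S) := by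
  rcases le_or_gt k 1 with hk | hk
  · haveI : Subsingleton (CuspForm (CongruenceSubgroup.Gamma0 N) k) :=
      ⟨fun f g => by
        rw [cuspForm_eq_zero_of_weight_le_one hk f, cuspForm_eq_zero_of_weight_le_one hk g]⟩
    have : Subsingleton (CuspForm.heckeAlgebra N k S) :=
      ⟨fun a b => Subtype.ext (LinearMap.ext fun v => Subsingleton.elim _ _)⟩
    infer_instance
  · obtain ⟨n, rfl⟩ : ∃ n : ℕ, k = (n : ℤ) + 2 := ⟨(k - 2).toNat, by omega⟩
    exact moduleFinite_weight n N S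

end Fermat.Agent.S22
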