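-- Statement S23 (row 22): weight two cusp forms on `Γ₀(N)` have an integral structure.
import Fermat.Statements.S23
import Fermat.Agent.S21
import Fermat.Agent.S22
import Fermat.Agent.S23.LatticeAlg
import Fermat.Agent.S23.PeriodLattice
import Fermat.Agent.S23.HeckeConj
import Fermat.Agent.S23.Coeff

set_option autoImplicit false
open CuspForm CongruenceSubgroup ModularCurve ModularCurve.Period

namespace Fermat.Agent.S23

open scoped ComplexConjugate

theorem result (N : ℕ) [NeZero N] : CuspForm.HasIntegralStructure N 2 := by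
  obtain ⟨hinj, hrange⟩ := Fermat.Agent.S21.result N
  -- finite-dimensionality
  have hfdP : FiniteDimensional ℂ (parabolicHoms ℂ (Gamma0 N) ℂ) :=
    (Fermat.Agent.S21.finrank_parabolicHoms_Gamma0_le N).1
  have hle : LinearMap.range (periodHomPair N) ≤ parabolicHoms ℂ (Gamma0 N) ℂ := hrange.le
  let φ : (CuspForm (Gamma0 N) 2 × CuspForm (Gamma0 N) 2) →ₗ[ℂ] parabolicHoms ℂ (Gamma0 N) ℂ :=
    (periodHomPair N).codRestrict _ (fun p => hle ⟨p, rfl⟩)
  have hφ : Function.Injective φ := by
    intro p q hpq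
    apply hinj
    exact congrArg Subtype.val hpq
  have hfdS : FiniteDimensional ℂ (CuspForm (Gamma0 N) 2 × CuspForm (Gamma0 N) 2) :=
    FiniteDimensional.of_injective φ hφ
  have hfdS1 : FiniteDimensional ℂ (CuspForm (Gamma0 N) 2) :=
    FiniteDimensional.of_injective (LinearMap.inl ℂ _ (CuspForm (Gamma0 N) 2))
      LinearMap.inl_injective
  have : Module.Finite ℤ (CuspForm.heckeAlgebra N 2 ∅) := Fermat.Agent.S22.result N 2 ∅
  -- conjugation
  let c : CuspForm (Gamma0 N) 2 →ₛₗ[starRingEnd ℂ] CuspForm (Gamma0 N) 2 :=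
    { toFun := Fermat.Agent.S21.conjCF N
      map_add' := Fermat.Agent.S21.conjCF_add
      map_smul' := Fermat.Agent.S21.conjCF_smul }
  have hc_surj : Function.Surjective c := fun f =>
    ⟨Fermat.Agent.S21.conjCF N f, Fermat.Agent.S21.conjCF_conjCF f⟩
  -- a₁
  let a₁ : Module.Dual ℂ (CuspForm (Gamma0 N) 2) :=
    { toFun := fun f => ModularFormClass.qCoeff (⇑f) 1
      map_add' := fun f g => Fermat.Agent.S49.qCoeff_add f g 1
      map_smul' := fun z f => by
        simp only [RingHom.id_apply, smul_eq_mul]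
        exact Fermat.Agent.S49.qCoeff_smul z f 1 }
  have hconj : ∀ f : CuspForm (Gamma0 N) 2, ∃ f' : CuspForm (Gamma0 N) 2, ∀ γ : Gamma0 N,
      periodMap N f (Additive.ofMul (jConjGamma0 N γ)) =
        - (starRingEnd ℂ) (periodMap N f' (Additive.ofMul γ)) := by
    intro f
    refine ⟨Fermat.Agent.S21.conjCF N f, fun γ => ?_⟩
    have := Fermat.Agent.S21.charInvolution_periodMap (N := N) (f := f)
      ⟨_, Fermat.Agent.S21.hasEquivariantPrimitive N f⟩ (Additive.ofMul γ)
    rw [charInvolution_apply] at this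
    exact this
  have hspan := LatticeAlg.span_integral_eq_top_of_lattice_rank
    (CuspForm.heckeAlgebra N 2 ∅)
    (fun s hs t ht => congrArg Subtype.val
      (mul_comm (⟨s, hs⟩ : CuspForm.heckeAlgebra N 2 ∅) ⟨t, ht⟩))
    (perLattice N) (perLattice_fg N)
    (fun t ht ξ hξ => perLattice_comp_mem N ht hξ)
    (perLattice_re_separating N hinj hconj)
    (finrank_perLattice_le N hinj hrange)
    c hc_surj (fun t ht f => conjCF_heckeAlgebra ht f)
    a₁ (fun f hf => eq_zero_of_a1 N 2 (by norm_num) f hf)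
  unfold CuspForm.HasIntegralStructure
  rw [eq_top_iff, ← hspan]
  apply Submodule.span_mono
  intro f hf
  exact mem_intLattice_of_a1 N 2 (by norm_num) f hf

end Fermat.Agent.S23
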