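import Fermat.Statements.S18
import Fermat.Agent.S18.Trans.Top
import Fermat.Agent.S18.Final.StarAll
import Fermat.Agent.S18.Descent.StarMulFinal
import Fermat.Agent.S18.Cusp.Level4CuspStar
import Fermat.Agent.S18.Cusp.Level9CuspH

set_option autoImplicit false
open ModularCurve

namespace Fermat.Agent.S18

theorem result (N : ℕ) [NeZero N] {ℓ : ℕ}
    [Fact ℓ.Prime] (hℓN : ¬ ℓ ∣ N) (A : ValuationSubring (AlgebraicClosure ℚ)) (hA : A.LiesOverPrime ℓ)
    (h : ModularCurve.ReductionInputsModL A N) (m : ℕ) (hm : ¬ ℓ ∣ m) (z : ModularCurve.JZero N)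
    (hmz : m • z = 0) (hz : ModularCurve.reductionModL A N z = 0) :
    z = 0 := by
  have hstar : Fermat.Agent.S18.Trans.Star A N m :=
    Fermat.Agent.S18.Final.StarAll.star_all_of N hℓN A m
      (fun N M _ _ hNM hℓM hs =>
        Fermat.Agent.S18.Descent.StarMulFinal.star_of_star_mul hNM hℓM A hA hm hs)
      (fun _ M _ h4 hℓM => Fermat.Agent.S18.Cusp.Level4CuspStar.star4 A hA M m h4 hℓM hm)
      (fun _ M _ h9 hℓM => Fermat.Agent.S18.Cusp.Level9CuspH.star9 A hA M m h9 hℓM hm)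
  exact Fermat.Agent.S18.Trans.s18_of_star N hℓN A hA h m hm hstar z hmz hz

end Fermat.Agent.S18
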