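-- Statement S28 (Igusa): for a prime ℓ not dividing N, the base change of the Igusa model of X₀(N)
-- over ℤ₍ℓ₎ to any field of characteristic ℓ is integral.
import Fermat.Statements.S28
import Fermat.Agent.S28.Assemble
import Fermat.Agent.S28.ChartRedInst
import Fermat.Agent.S28.ExportFinal
import Fermat.Agent.S28.RegDegree2

set_option autoImplicit false
open AlgebraicGeometry CategoryTheory CategoryTheory.Limits ModularCurve ModularCurve.IgusaScheme
noncomputable section
set_option autoImplicit false
open ModularCurve ModularCurve.IgusaScheme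

namespace Fermat.Agent.S28

set_option maxHeartbeats 4000000 in
set_option synthInstance.maxHeartbeats 400000 in
theorem result
    (N : ℕ) [NeZero N] (ℓ : ℕ) [Fact ℓ.Prime] (hℓN : ¬ ℓ ∣ N)
    (K : Type) [Field K] [CharP K ℓ] [Algebra ↥(GaloisRep.ratLocalizedAt ℓ) K] :
    IsIntegral ↑(pullback (igusaTo N ℓ)
      (Spec.map (CommRingCat.ofHom (algebraMap ↥(GaloisRep.ratLocalizedAt ℓ) K)))) := by
  obtain ⟨ρFin, ρInf, hFin, hj, hInf⟩ :=
    ChartRed.chartRed N ℓ (ExportFinal.E1 N ℓ hℓN) (ExportFinal.E2 N ℓ hℓN)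
      (RegDegree2.dependent_of_card N)
  exact Assemble.isIntegral_pullback_of_chartRed N ℓ K ρFin hFin hj ρInf hInf

end Fermat.Agent.S28
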