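-- Statement S30 (row 29): a ring homomorphism from the weight-2 Hecke algebra of level N (away from
-- S) to a complete DVR 𝒪' of characteristic 0 has an attached Galois representation over 𝒪'' := 𝒪'.
-- Proof: `Skeleton.result_of_blocks` (helper8) at the three blocks
--   (M) `BlockMInst.blockM` (helper11; the χ-eigenmodule in 𝒪' ⊗ T_p J₀(N)),
--   (T) `BlockT.blockT` (helper15; adic power transfer from weak cyclic Chebotarev),
--   (QL) `FinalOf.blockQL` (helper13; two-dimensional piece by oddness, lattice, packaging).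
import Fermat.Statements.S30
import Fermat.Agent.S30.Skeleton
import Fermat.Agent.S30.BlockMInst
import Fermat.Agent.S30.BlockT
import Fermat.Agent.S30.FinalOf

set_option autoImplicit false
open Polynomial
open CuspForm

namespace Fermat.Agent.S30

theorem result :
    ∀ (p : ℕ) [Fact p.Prime] (N : ℕ) [NeZero N] (S : Finset ℕ)
      (_hpS : p ∈ S) (_hNS : ∀ q : ℕ, q.Prime → q ∣ N → q ∈ S)
      (𝒪' : Type) [CommRing 𝒪'] [IsDomain 𝒪'] [IsDiscreteValuationRing 𝒪']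
      [IsAdicComplete (IsLocalRing.maximalIdeal 𝒪') 𝒪'] [Finite (IsLocalRing.ResidueField 𝒪')]
      [CharZero 𝒪'] (_hp𝒪' : (p : 𝒪') ∈ IsLocalRing.maximalIdeal 𝒪')
      (χ : CuspForm.heckeAlgebra N 2 (↑S : Set ℕ) →+* 𝒪'),
      ∃ (𝒪'' : Type) (_ : CommRing 𝒪'') (_ : IsDomain 𝒪'') (_ : IsDiscreteValuationRing 𝒪'')
        (_ : IsAdicComplete (IsLocalRing.maximalIdeal 𝒪'') 𝒪'')
        (_ : Finite (IsLocalRing.ResidueField 𝒪'')) (_ : CharZero 𝒪'')
        (_ : Algebra 𝒪' 𝒪'') (_ : Module.Finite 𝒪' 𝒪'') (_ : IsLocalHom (algebraMap 𝒪' 𝒪'')),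
      Function.Injective (algebraMap 𝒪' 𝒪'') ∧
      ∃ ρ : GaloisRepAdic 𝒪'',
        (∀ (ℓ : ℕ) (hℓ : ℓ.Prime) (hℓN : ¬ ℓ ∣ N) (hℓS : ℓ ∉ (↑S : Set ℕ)),
          ∀ A : ValuationSubring (AlgebraicClosure ℚ), A.LiesOverPrime ℓ →
            ∀ σ : AlgebraicClosure ℚ ≃ₐ[ℚ] AlgebraicClosure ℚ, A.IsFrobeniusAt σ ℓ →
              LinearMap.charpoly (ρ.ρ σ) =
                X ^ 2 - C (algebraMap 𝒪' 𝒪'' (χ (CuspForm.heckeAlgebra.T hℓ hℓN hℓS))) * X
                  + C ((ℓ : 𝒪''))) ∧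
        (∀ q : ℕ, q.Prime → ¬ q ∣ N → q ≠ p → ρ.IsUnramifiedAt q) := by
  intro p _ N _ S hpS hNS 𝒪' _ _ _ _ _ _ hp χ
  exact Skeleton.result_of_blocks (hp := hp) hpS hNS χ
    (BlockMInst.blockM hp hpS χ) (BlockT.blockT p 𝒪' hp) (FinalOf.blockQL p 𝒪' hp)

end Fermat.Agent.S30
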