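-- Statement S37 (row 36): existence of the specialization maps on `J₀(N)[p^∞]` (Eichler–Shimura
-- congruence side), `ModularCurve.specializationExists_JZero`.
-- Proof: `Key/Frozen.specializationExists_of_localInput` (Top + DivisorForm: the frozen statement
-- from the divisor-level KEY) fed with `Key/Assemble.localInput` (block G's `(*)_N`, the local KEY
-- at the auxiliary level `lcm N 4` resp. `lcm N 9` from the local equations / unit criterion on the
-- `J`-chart, Theorem N at levels 4 and 9).
import Fermat.Statements.S37
import Fermat.Agent.S37.Key.Frozen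
import Fermat.Agent.S37.Key.Assemble

set_option autoImplicit false
open ModularCurve

namespace Fermat.Agent.S37

theorem result (N p : ℕ) [NeZero N] (hcomm : ModularCurve.HeckeOperatorsCommuteBar N) : letI := ModularCurve.heckeModuleBar N; ∀ (_ : SMulCommClass (AlgebraicClosure ℚ ≃ₐ[ℚ] AlgebraicClosure ℚ) ModularCurve.HeckeAlg (ModularCurve.JZero N)), ModularCurve.SpecializationExists (K := ℚ) (L := AlgebraicClosure ℚ) N p (ModularCurve.JZero N) := by
  refine Fermat.Agent.S37.Key.Frozen.specializationExists_of_localInput N p hcomm
    (fun ℓ hℓ hndvd A hA Φ hΦ => ?_)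
  have : Fact ℓ.Prime := ⟨hℓ⟩
  have := Fermat.Agent.S18.Trans.LiesOver.charP_residueField hA
  exact Fermat.Agent.S37.Key.Assemble.localInput N p ℓ hndvd A hA hΦ

end Fermat.Agent.S37
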