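-- Statement S41 (row 39): Ribet level raising. The statement below is byte-identical to the frozen
-- statement WeierstrassCurve.FermatFrozen.S41 (Fermat/Statements/S41.lean).
-- Proof: Top2.result_of_blocks (L4 non-Eisenstein prime, square variant) + Assembly.blockNewVectorSq_of
-- (Betti side: Poincare duality, degeneracy maps, Ihara via Mennicke/amalgam/transfer, counting,
-- Deligne-Serre lifting, Eichler-Shimura transport). Team proof, helper libraries under Fermat/Agent/S41/.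
import Fermat.Statements.S41
import Fermat.Agent.S41.Top2
import Fermat.Agent.S41.Assembly.NewVector
import Fermat.Agent.S41.Assembly.NewForm
import Fermat.Agent.S41.NonEis.BlockSq
import Fermat.Agent.S41.PD.BlockPD
import Fermat.Agent.S41.PD.WIsom
import Fermat.Agent.S41.Degen.CorHecke
import Fermat.Agent.S41.Ihara.Block

set_option autoImplicit false
open WeierstrassCurve WeierstrassCurve.Affine WeierstrassCurve.Affine.Point
open scoped CongruenceSubgroup
open WeierstrassCurve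

namespace Fermat.Agent.S41

theorem result
    (E : WeierstrassCurve ℚ) [E.IsElliptic] {W : WeierstrassCurve ℤ} (hW : W.IsIntegralModelOf E)
    {p N q' : ℕ} (hp : p.Prime) (hp2 : p ≠ 2) (hN : 0 < N) (hq' : q'.Prime) (hq'N : ¬ q' ∣ N) (hq'p : q' ≠ p)
    (hirr : GaloisRepIsIrreducible (K := AlgebraicClosure ℚ) ℚ E p)
    (f : CuspForm (CongruenceSubgroup.Gamma0 N) 2) (𝔪 : Ideal (integralClosure ℤ ℂ))
    (hf : f.IsNormalizedEigenform) (hmax : 𝔪.IsMaximal) (hpm : (p : integralClosure ℤ ℂ) ∈ 𝔪)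
    (hcong : ∀ ℓ : ℕ, ℓ.Prime → W.IsGoodPrimeFor ℓ → ¬ ℓ ∣ N → ℓ ≠ p →
      ∃ a : integralClosure ℤ ℂ, (a : ℂ) = ModularFormClass.qCoeff f ℓ ∧
        a - ((W.apOfModel ℓ : ℤ) : integralClosure ℤ ℂ) ∈ 𝔪)
    (hLR : ∃ a : integralClosure ℤ ℂ, (a : ℂ) = ModularFormClass.qCoeff f q' ∧
      a ^ 2 - ((q' : integralClosure ℤ ℂ) + 1) ^ 2 ∈ 𝔪) :
    ∃ (g : CuspForm (CongruenceSubgroup.Gamma0 (N * q')) 2) (𝔪' : Ideal (integralClosure ℤ ℂ)),
      g.IsNormalizedEigenform ∧ 𝔪'.IsMaximal ∧ (p : integralClosure ℤ ℂ) ∈ 𝔪' ∧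
      (∀ ℓ : ℕ, ℓ.Prime → W.IsGoodPrimeFor ℓ → ¬ ℓ ∣ N * q' → ℓ ≠ p →
        ∃ a : integralClosure ℤ ℂ, (a : ℂ) = ModularFormClass.qCoeff g ℓ ∧
          a - ((W.apOfModel ℓ : ℤ) : integralClosure ℤ ℂ) ∈ 𝔪') ∧
      g.IsNewAt q' :=
  Fermat.Agent.S41.Top2.result_of_blocks Fermat.Agent.S41.NonEis.BlockSq.blockNonEisSq
    (Fermat.Agent.S41.Assembly.blockNewVectorSq_of
      (fun _ _ _ _ _ d x h => Fermat.Agent.S41.PD.BlockPD.hadjA d x h)
      (fun _ _ _ _ d y y' => Fermat.Agent.S41.PD.WIsom.hIsomW d y y')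
      Fermat.Agent.S41.Degen.CorHecke.hCorHecke
      Fermat.Agent.S41.Degen.CorHecke.hWHecke
      Fermat.Agent.S41.Ihara.Block.hIharaStmt
      Fermat.Agent.S41.Assembly.hNewForm)
    E hW hp hp2 hN hq' hq'N hq'p hirr f 𝔪 hf hmax hpm hcong hLR

end Fermat.Agent.S41
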