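-- Statement S42 (row 40): the eigenform residual attachment family for a Frey package.
-- The statement below is byte-identical to the frozen statement
-- FreyPackage.FermatFrozen.S42 (Fermat/Statements/S42.lean).
import Fermat.Statements.S42
import Fermat.Agent.S29.Assemble.OfDesc
import Fermat.Agent.S29.Desc.HeckeSquare

set_option autoImplicit false
open FreyPackage

namespace Fermat.Agent.S42

theorem result (P : FreyPackage) :
    ∀ M : ℕ, 0 < M → P.EigenformResidualAttachmentAt M :=
  Fermat.Agent.S29.Assemble.s42_of_desc Fermat.Agent.S29.Desc.Final.blockDesc P

end Fermat.Agent.S42
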