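import Fermat.Statements.S49
import Fermat.Agent.S49.Ideal

set_option autoImplicit false
open CuspForm EisensteinWeightOne CongruenceSubgroup ModularFormClass
open FLT FLT.AbstractIntegralStructure

namespace Fermat.Agent.S49

theorem result
    {N : ℕ} [NeZero N] (h : CuspForm.HasIntegralBasis N) {a : ℕ → ℤ}
    (heig : FormalHecke.IsEigensystem
      (fun ℓ => if ℓ ∣ N then 0 else ((chiNegThree ℓ : ℤ) : ℤ)) a)
    (hreal : CuspForm.IsLatticeRealized N a) :
    ∃ (f : CuspForm (Gamma0 N) 2) (_ : f.IsNormalizedEigenform)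
      (𝔪' : Ideal (integralClosure ℤ ℂ)), 𝔪'.IsMaximal ∧
      ((3 : ℕ) : integralClosure ℤ ℂ) ∈ 𝔪' ∧
      ∀ (ℓ : ℕ) (_ : ℓ.Prime) (_ : ¬ ℓ ∣ N),
        ∃ c : integralClosure ℤ ℂ, (c : ℂ) = ModularFormClass.qCoeff f ℓ ∧
          c - (a ℓ : integralClosure ℤ ℂ) ∈ 𝔪' := by
  classical
  obtain ⟨f₀, -, af, haf, hcong0⟩ := hreal
  have hcong : ∀ n, (3 : ℤ) ∣ af n - a n := by
    intro n
    have h1 := hcong0 n
    have h2 := bridgeProduct_coeff_congr a n
    have : af n - a n = (af n - (PowerSeries.coeff n (bridgeProduct a))) +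
        ((PowerSeries.coeff n (bridgeProduct a)) - a n) := by ring
    rw [this]; exact dvd_add h1 h2
  have hf₀ : f₀ ∈ CuspForm.intLattice N 2 :=
    mem_intLattice_of_qCoeff fun n => ⟨af n, (haf n).symm⟩
  have hspan : Submodule.span ℂ
      ((CuspForm.intLattice N 2 : Submodule ℤ (CuspForm (Gamma0 N) 2)) :
        Set (CuspForm (Gamma0 N) 2)) = ⊤ := by
    rw [eq_top_iff, ← h]
    apply Submodule.span_mono
    intro f hf
    apply mem_intLattice_of_qCoeff
    intro n
    obtain ⟨m, hm⟩ := Subring.mem_bot.mp (hf n)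
    exact ⟨m, hm.symm⟩
  have hmaxT := eigenIdeal_isMaximal heig haf hcong
  obtain ⟨w, θ, 𝔪', hw0, hθ, hmax, hmem⟩ := exists_lift (heckeRep N) heckeRep_injective
    (CuspForm.intLattice N 2) (CuspForm.intLattice_fg N 2) hspan
    (fun t x hx => heckeRep_mem_intLattice t hx) (eigenIdeal N f₀)
  let lam : ℕ → ℂ := fun p =>
    if hp : p.Prime then
      (if hpN : p ∣ N then
        ((θ (heckeAlgebra.U hp hpN (Set.notMem_empty p)) : integralClosure ℤ ℂ) : ℂ)
      else ((θ (heckeAlgebra.T hp hpN (Set.notMem_empty p)) : integralClosure ℤ ℂ) : ℂ))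
    else 0
  let e' : ℕ → ℂ := fun p => if p ∣ N then 0 else (p : ℂ)
  let b : ℕ → ℂ := fun n => qCoeff (⇑w) n
  have hrel : ∀ p : ℕ, p.Prime → ∀ n : ℕ,
      b (n * p) + (if p ∣ n then e' p * b (n / p) else 0) = lam p * b n := by
    intro p hp n
    by_cases hpN : p ∣ N
    · have h1 := hθ (heckeAlgebra.U hp hpN (Set.notMem_empty p))
      have h2 := congrArg (fun g : CuspForm (Gamma0 N) 2 => qCoeff (⇑g) n) h1
      simp only [heckeRep_apply, heckeAlgebra.coe_U, qCoeff_heckeULin hp, qCoeff_smul,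
        ModularForm.coeffHeckeU_apply] at h2
      simp only [lam, e', b, dif_pos hp, dif_pos hpN, if_pos hpN, zero_mul, ite_self, add_zero]
      exact h2
    · have h1 := hθ (heckeAlgebra.T hp hpN (Set.notMem_empty p))
      have h2 := congrArg (fun g : CuspForm (Gamma0 N) 2 => qCoeff (⇑g) n) h1
      simp only [heckeRep_apply, heckeAlgebra.coe_T, qCoeff_heckeTLin hp, qCoeff_smul,
        ModularForm.coeffHeckeT_apply] at h2
      simp only [lam, e', b, dif_pos hp, dif_neg hpN, if_neg hpN]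
      rw [← h2]
      norm_num
  have hb1 : b 1 ≠ 0 := by
    intro h1
    apply hw0
    apply eq_zero_of_qCoeff
    exact heckeRel_vanish hrel (qCoeff_zero_idx w) h1
  obtain ⟨hE, hlam⟩ := heckeRel_normalize hrel hb1
  let g : CuspForm (Gamma0 N) 2 := (b 1)⁻¹ • w
  have hg : ∀ n, qCoeff (⇑g) n = (b 1)⁻¹ * b n := fun n => qCoeff_smul _ _ _
  refine ⟨g, ?_, 𝔪', hmax, ?_, ?_⟩
  · constructor
    · rw [hg]; exact hE.1
    · intro m n hmn
      rw [hg, hg, hg]
      exact eigensystem_mul_of_coprime hE m n hmn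
    · intro p r hp hpN
      rw [hg, hg, hg, hg]
      have := eigensystem_prime_pow hE p r hp
      simp only [e', if_neg hpN] at this
      exact this
    · intro p r hp hpN
      rw [hg, hg, hg]
      have := eigensystem_prime_pow hE p r hp
      simp only [e', if_pos hpN, zero_mul, sub_zero] at this
      exact this
  · have := hmem 3 (three_mem_eigenIdeal hf₀)
    rw [map_ofNat] at this
    exact_mod_cast this
  · intro ℓ hℓ hℓN
    refine ⟨θ (heckeAlgebra.T hℓ hℓN (Set.notMem_empty ℓ)), ?_, ?_⟩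
    · rw [hg, ← hlam ℓ hℓ]
      simp only [lam, dif_pos hℓ, dif_neg hℓN]
    · obtain ⟨h', hh', he'⟩ := heckeT_sub_mem heig haf hcong hℓ hℓN
      have := hmem _ (sub_intCast_mem_eigenIdeal
        (x := heckeAlgebra.T hℓ hℓN (Set.notMem_empty ℓ)) (c := a ℓ) hh'
        (by rw [heckeRep_apply, heckeAlgebra.coe_T]; exact he'))
      rwa [map_sub, map_intCast] at this

end Fermat.Agent.S49
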