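import Fermat.Statements.S51
import Fermat.Agent.S51.Main
import Fermat.Agent.S51.StablePoint
import Fermat.Agent.S51.Exists
import Fermat.Agent.S51.Count
import Fermat.Agent.S51.EndgameQ
import Fermat.Agent.S51.E15Iso

set_option autoImplicit false
open WeierstrassCurve WeierstrassCurve.Affine WeierstrassCurve.Affine.Point
open CuspForm ModularFormClass UpperHalfPlane
open WeierstrassCurve

namespace Fermat.Agent.S51

local notation "Qbar" => AlgebraicClosure ℚ

theorem result (W : WeierstrassCurve ℤ) (hΔ : W.Δ ≠ 0) (hW : W.IsSemistableModel) : W.ModRepIsIrreducible 3 ∨ W.ModRepIsIrreducible 5 := by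
  classical
  by_contra hcon
  rw [not_or] at hcon
  obtain ⟨h3, h5⟩ := hcon
  -- the discriminant of the base change to `Qbar` is nonzero
  have hΔK : ((W.map (Int.castRingHom ℚ))⁄Qbar).Δ ≠ 0 := by
    change ((W.map (Int.castRingHom ℚ)).map (algebraMap ℚ Qbar)).Δ ≠ 0
    rw [WeierstrassCurve.map_Δ, WeierstrassCurve.map_Δ]
    simpa using hΔ
  -- a Galois-stable point of order 3
  obtain ⟨P₃, hP₃0, hP₃3, hG3⟩ := exists_stable_point_three W hΔ h3
  -- a Galois-stable point of order 5
  have : Fact (Nat.Prime 5) := ⟨by norm_num⟩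
  obtain ⟨hfin, hcard⟩ := card_five_le ((W.map (Int.castRingHom ℚ))⁄Qbar)
  obtain ⟨P₅, hP₅0, hP₅5, hG5⟩ := exists_stable_point_int W 5 (by simpa using hfin)
    (by simpa using hcard)
    (exists_torsion_point ((W.map (Int.castRingHom ℚ))⁄Qbar) hΔK 5 (Or.inr rfl)) h5
  exact Main.no_three_five W hΔ
    (fun ω B θ hG h0 hθ hB hj =>
      endgame_Q W hW ω B θ hG h0 hθ hB hj Iso.E15_rational_points)
    P₃ P₅ hP₃0 hP₃3 hG3 hP₅0 hP₅5 hG5

end Fermat.Agent.S51
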