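import Fermat.Statements.S53
import Fermat.Agent.S53.Tangent
import Fermat.Agent.S53.Levels
import Fermat.Agent.S53.UnivRep

set_option autoImplicit false
set_option autoImplicit false
open GaloisRep

namespace Fermat.Agent.S53

theorem result
    (𝒪 : Type) [CommRing 𝒪] [IsDomain 𝒪] [IsDiscreteValuationRing 𝒪]
    [IsAdicComplete (IsLocalRing.maximalIdeal 𝒪) 𝒪] [Finite (IsLocalRing.ResidueField 𝒪)]
    (ρbar : ResidualGaloisRep (IsLocalRing.ResidueField 𝒪))
    (𝒟 : ∀ ⦃A : Type⦄ [CommRing A] [IsLocalRing A] [Algebra 𝒪 A], GaloisRepAdic A → Prop)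
    (habs : ρbar.IsAbsolutelyIrreducible)
    (h𝒟 : GaloisRep.IsDeformationCondition 𝒪 𝒟)
    (hbar : 𝒟 (GaloisRepAdic.ofResidualGaloisRep ρbar))
    (hfin : GaloisRep.TangentFinite 𝒪 ρbar 𝒟) :
    Nonempty (GaloisRep.DeformationRingData 𝒪 ρbar 𝒟) := by
  obtain ⟨c, hc, he, hspan⟩ := exists_sliceCtx 𝒪 ρbar habs
  have hbarD : Dm 𝒟 c.rbar := dm_rbar_of_hbar h𝒟 hc he hbar
  have htan : SlicedTangentFinite 𝒪 c 𝒟 :=
    slicedTangentFinite_of_tangentFinite hc hspan he hfin
  have H : LevelAxioms (nbar c) (IsDefIdeal c 𝒟) := levelAxioms hc h𝒟 hspan hbarD htan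
  obtain ⟨L⟩ := (levelTower hc h𝒟 H).nonempty_limit
  obtain ⟨rR, hrR, hD, hex, huniq⟩ := exists_universal_sliced hc h𝒟 H L
  obtain ⟨hcts, hDρ⟩ := hD
  refine ⟨{ R := L.R
            residue_surjective := L.residue_surjective
            absIrr := habs
            ρ := ofMat rR hcts
            isOfType := hDρ
            residual_isEquiv := ?_
            universal := ?_ }⟩
  · exact (residual_isEquiv_congr he _ _).mpr (slicedLift_residual hc hrR)
  · intro A _ _ _ _ _ _ hres ρA hρA hρres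
    exact existsUnique_algHom_sliced 𝒟 h𝒟 hc hspan rR hrR hex huniq A hres ρA hρA
      ((residual_isEquiv_congr he _ _).mp hρres)

end Fermat.Agent.S53
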