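import Fermat.Statements.S57
import Fermat.Agent.S57.Patching

set_option autoImplicit false
open Algebra Algebra.PatchingLevel

namespace Fermat.Agent.S57

theorem result
    {𝒪 : Type} [CommRing 𝒪] [IsDomain 𝒪] [IsDiscreteValuationRing 𝒪]
    {r : ℕ} {R : Type} [CommRing R] [Algebra 𝒪 R]
    {M : Type} [AddCommGroup M] [Module R M] [Nontrivial M]
    (L : Algebra.PatchingLevel 𝒪 r R M ⊥) :
    Module.Free R M ∧ Module.annihilator R M = ⊥ ∧
      RingHom.ker L.ψ = Ideal.span (Set.range fun i : Fin r => L.φ (MvPowerSeries.X i)) := by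
  have hfree := free_N L
  have hfin := finite_N L
  set I : Ideal (MvPowerSeries (Fin r) 𝒪) :=
    Ideal.span (Set.range fun i : Fin r => L.φ (MvPowerSeries.X i)) with hI
  let ι := Module.Free.ChooseBasisIndex (MvPowerSeries (Fin r) 𝒪) L.N
  let e : Module.Basis ι (MvPowerSeries (Fin r) 𝒪) L.N :=
    Module.Free.chooseBasis (MvPowerSeries (Fin r) 𝒪) L.N
  have key : ∀ x : L.N, L.π x = 0 ↔ ∀ i, e.repr x i ∈ I := by
    intro x
    rw [L.ker_π, ← e.span_eq, Submodule.mem_ideal_smul_span_iff_exists_sum]
    constructor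
    · rintro ⟨a, ha, rfl⟩ i
      have : (a.sum fun i c => c • e i) = Finsupp.linearCombination _ e a := rfl
      rw [this, e.repr_linearCombination]
      exact ha i
    · intro h
      refine ⟨e.repr x, h, ?_⟩
      exact e.linearCombination_repr x
  have hIker : I ≤ RingHom.ker L.ψ := by
    rw [hI, Ideal.span_le]
    rintro _ ⟨i, rfl⟩
    exact L.ψ_φ_X i
  have hNnt : Nontrivial L.N := by
    obtain ⟨m, hm⟩ := exists_ne (0 : M)
    obtain ⟨x, rfl⟩ := L.π_surjective m
    exact ⟨⟨x, 0, fun h => hm (by rw [h, map_zero])⟩⟩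
  have hne : Nonempty ι := e.index_nonempty
  obtain ⟨i₀⟩ := hne
  have hmemI : ∀ f : MvPowerSeries (Fin r) 𝒪, L.π (f • e i₀) = 0 → f ∈ I := by
    intro f hf
    have := (key _).mp hf i₀
    simpa using this
  have hkerI : RingHom.ker L.ψ ≤ I := by
    intro f hf
    apply hmemI
    rw [L.π_smul, (RingHom.mem_ker).mp hf, zero_smul]
  refine ⟨?_, ?_, le_antisymm hkerI hIker⟩
  · have hli : LinearIndependent R (fun i => L.π (e i)) := by
      rw [Fintype.linearIndependent_iff]
      intro g hg i
      choose f hf using fun j => L.ψ_surjective (g j)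
      have h1 : L.π (∑ j, f j • e j) = 0 := by
        rw [map_sum, ← hg]
        refine Finset.sum_congr rfl fun j _ => ?_
        rw [L.π_smul, hf]
      have h2 := (key _).mp h1 i
      rw [e.repr_sum_self] at h2
      rw [← hf i]
      exact hIker h2
    have hsp : ⊤ ≤ Submodule.span R (Set.range fun i => L.π (e i)) := by
      intro m _
      obtain ⟨x, rfl⟩ := L.π_surjective m
      rw [← e.sum_repr x, map_sum]
      refine Submodule.sum_mem _ fun j _ => ?_
      rw [L.π_smul]
      exact Submodule.smul_mem _ _ (Submodule.subset_span ⟨j, rfl⟩)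
    exact Module.Free.of_basis (Module.Basis.mk hli hsp)
  · rw [eq_bot_iff]
    intro a ha
    obtain ⟨f, rfl⟩ := L.ψ_surjective a
    rw [Submodule.mem_bot]
    have h1 : L.π (f • e i₀) = 0 := by
      rw [L.π_smul]
      exact Module.mem_annihilator.mp ha _
    exact hIker (hmemI f h1)

end Fermat.Agent.S57
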